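/-
Project BAD, block LevelQ (owner helper39): charts with SEVERAL vertical valuations.

Language of `S18/Defs.lean` (`IsUnif`, `chart`, `polyRing`).  `F` is a function field over `K₀`,
`A₀` a discrete valuation ring of `K₀`, `V c` (`c : ι`) the vertical valuation rings of `F`.
Imports Mathlib and `S18/Defs.lean` only.
-/
import Mathlib
import Fermat.Agent.S18.Defs

set_option autoImplicit false

noncomputable section

namespace Fermat.Agent.BAD.LevelQ

open Polynomial IntermediateField Fermat.Agent.S18

variable {K₀ F : Type*} [Field K₀] [Field F] [Algebra K₀ F]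

/-- `x` lies in the valuation ring `W` and its residue is transcendental over the residue field
of `A₀`. -/
structure IsMCoord (A₀ : ValuationSubring K₀) (W : ValuationSubring F) (x : F) : Prop where
  mem : x ∈ W
  transc : ∀ p : K₀[X], (∀ i, p.coeff i ∈ A₀) → W.valuation (aeval x p) < 1 →
    ∀ i, A₀.valuation (p.coeff i) < 1

/-- The family `V` is the complete list of the vertical valuation rings of `F`, relative to the
subfield `E` (`= K₀(x)`): an element which is integral at all of them is integral over
`E ∩ ⋂ V c`. -/
structure IsMVert (A₀ : ValuationSubring K₀) (ϖ₀ : K₀) {ι : Type*} (V : ι → ValuationSubring F)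
    (E : IntermediateField K₀ F) : Prop where
  unif₀ : IsUnif A₀ ϖ₀
  const_mem : ∀ c, ∀ a ∈ A₀, algebraMap K₀ F a ∈ V c
  lt_one : ∀ c, (V c).valuation (algebraMap K₀ F ϖ₀) < 1
  finite : FiniteDimensional E F
  integral : ∀ y : F, (∀ c, y ∈ V c) →
    ∃ p : E[X], p.Monic ∧ (∀ i c, (p.coeff i : F) ∈ V c) ∧ aeval y p = 0

/-- Separating elements: `e` is integral at all the `V d`, a unit at `V c` and a non-unit at
`V c'`. -/
def IsSep {ι : Type*} (V : ι → ValuationSubring F) : Prop :=
  ∀ c c', c ≠ c' → ∃ e : F, (∀ d, e ∈ V d) ∧ (V c).valuation e = 1 ∧ (V c').valuation e < 1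

end Fermat.Agent.BAD.LevelQ
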