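/-
Project BAD, block LevelQ (owner helper39): THE HUB.

`LQ` = everything the geometric consumers (S33, S34/S35, S44, S15, level `q²` of S36) use about the
model of `X₀(M q)` (`q ∤ M`) over a discrete valuation ring `A₀` of residue characteristic `q`,
in the one-field language of `S18/Defs.lean` / `BAD/LevelQ/Defs.lean`.

* `F'` = function field of level `M`, `F` = function field of level `M q`,
  `al be : F' → F` the two degeneracy maps `f(z) ↦ f(z)`, `f(z) ↦ f(q z)`, `w` = Atkin-Lehner;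
* `Ow'` = the Gauss valuation ring of `F'` (good reduction), `x'` a good coordinate of level `M`;
* `V 0 = v_∞` = the Gauss valuation ring of `F`, `V 1 = v_0 = v_∞ ∘ w`;
* `γ : F' → F'` = the inverse of a Frobenius lift, acting on the coefficients.

The concrete instance (block LQ-MOD, helper88) PRODUCES an `LQ`; the blocks LQ-SF (special fibre:
NOR, RAD, `Nodal.Base`) and LQ-PT (closed points, regular model) CONSUME it.
No hypothesis relating `q` to any Kummer exponent.  Imports Mathlib, `S18/Defs`, `LevelQ/Defs`.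
-/
import Mathlib
import Fermat.Agent.S18.Defs
import Fermat.Agent.BAD.LevelQ.Defs

set_option autoImplicit false

noncomputable section

namespace Fermat.Agent.BAD.LevelQ

open Polynomial IntermediateField Fermat.Agent.S18

variable {K₀ F' F : Type*} [Field K₀] [Field F'] [Field F] [Algebra K₀ F'] [Algebra K₀ F]

/-- **The abstract model of `X₀(M q)` over `A₀`.** -/
structure LQ (A₀ : ValuationSubring K₀) (ϖ₀ : K₀) (q : ℕ) (al be : F' →ₐ[K₀] F) (w : F ≃ₐ[K₀] F)
    (γ : F' →+* F') (Ow' : ValuationSubring F') (V : Fin 2 → ValuationSubring F) (x' : F') :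
    Prop where
  prime : q.Prime
  /-- the residue characteristic is `q` -/
  char : A₀.valuation (q : K₀) < 1
  -- Atkin-Lehner
  w_al : ∀ f, w (al f) = be f
  w_be : ∀ f, w (be f) = al f
  w_w : ∀ y, w (w y) = y
  V_one : ∀ y, y ∈ V 1 ↔ w y ∈ V 0
  -- the good model of level `M`
  vert' : IsVert A₀ ϖ₀ Ow' K₀⟮x'⟯
  coord' : IsCoord A₀ ϖ₀ Ow' K₀⟮x'⟯ x'
  chart₁' : IsChart Ow' (algebraMap K₀ F' ϖ₀) (chart A₀.toSubring x')
  chart₂' : IsChart Ow' (algebraMap K₀ F' ϖ₀) (chart A₀.toSubring x'⁻¹)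
  -- the table of valuations: `e = 1`; `f = 1` for `(v_∞, α)`
  unif : IsUnif (V 0) (algebraMap K₀ F ϖ₀)
  comap_al : ∀ f, al f ∈ V 0 ↔ f ∈ Ow'
  comap_be : ∀ f, be f ∈ V 0 ↔ f ∈ Ow'
  dense : ∀ y ∈ V 0, ∃ r ∈ Ow', (V 0).valuation (y - al r) < 1
  -- Kronecker's congruence `f(q z) ≡ (γ f)(z) ^ q`
  γ_const : ∀ a ∈ A₀, ∃ a' ∈ A₀, γ (algebraMap K₀ F' a) = algebraMap K₀ F' a'
  γ_x : γ x' = x'
  γ_mem : ∀ f ∈ Ow', γ f ∈ Ow'
  kron : ∀ f ∈ Ow', (V 0).valuation (be f - al (γ f) ^ q) < 1
  -- `v_∞ ≠ v_0`, and there is no other vertical valuation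
  sep : IsSep V
  complete : IsMVert A₀ ϖ₀ V K₀⟮al x'⟯
  -- on the generic fibre: the poles of `x'(q z)` are poles of `x'(z)`
  be_int : be x' ∈ chart (⊤ : Subring K₀) (al x')

/-- The `w`-invariant coordinate `x = x'(z) x'(q z)` of level `M q`. -/
abbrev xx (al be : F' →ₐ[K₀] F) (x' : F') : F := al x' * be x'

/-- The first chart of the model of level `M q`
(it is also `chart A₀ (al x')` and `chart A₀ (be x')`); it contains `al B₁'` and `be B₁'`,
`B₁' = chart A₀ x'`, and it is stable under `w`. -/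
abbrev ch₁ (A₀ : ValuationSubring K₀) (al be : F' →ₐ[K₀] F) (x' : F') : Subring F :=
  chart A₀.toSubring (xx al be x')

/-- The second chart; it contains `al B₂'` and `be B₂'`, `B₂' = chart A₀ x'⁻¹`, and it is stable
under `w`.  (WARNING: for `x' = j` it is NOT `chart A₀ (al x')⁻¹`, which is not `w`-stable.) -/
abbrev ch₂ (A₀ : ValuationSubring K₀) (al be : F' →ₐ[K₀] F) (x' : F') : Subring F :=
  chart A₀.toSubring (xx al be x')⁻¹

end Fermat.Agent.BAD.LevelQ
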