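/-
Project BAD, block LevelQ: ADAPTOR from the hub `LQ` (language of `S18/Defs`, `BAD/LevelQ/Defs`) to the
base `Nodal.Base` of the nodal core (language of `KLB/Abs`).          Owner: helper280.

`A` is any discrete valuation ring with an injection into `K₀` of image `A₀`, `P` any field with an
embedding into `F` of image `K₀(x)`, `x = x'(z) x'(q z)` the `w`-invariant coordinate.

* `Dict.isIntegral_adjoin_iff` : `IsIntegral (Algebra.adjoin A {x}) y ↔ y ∈ chart A₀ z`;
* `LQ.nodalBase`               : the base of the nodal core at level `M q`.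
-/
import Fermat.Agent.BAD.LevelQ.Hub.Basic
import Fermat.Agent.BAD.LevelQ.Hub.Nor
import Fermat.Agent.BAD.LevelQ.Hub.Rad
import Fermat.Agent.BAD.LevelQ.Hub.Vert
import Fermat.Agent.Nodal.Defs
import Fermat.Agent.KLB.Mod.GaussLocAbs
import Fermat.Agent.S18.Chart.DedUnif

set_option autoImplicit false

noncomputable section

namespace Fermat.Agent.BAD.LevelQ

open Polynomial IntermediateField Fermat.Agent.S18 CoordAux

namespace Dict

variable {K₀ F : Type*} [Field K₀] [Field F] [Algebra K₀ F]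
variable {A₀ : ValuationSubring K₀} {ϖ₀ : K₀}
variable {A P : Type*} [CommRing A] [Field P] [Algebra A K₀] [Algebra A P] [Algebra P F]
  [Algebra A F] [IsScalarTower A P F] [IsScalarTower A K₀ F]

theorem algebraMap_aeval {x : P} {z : F} (hx : algebraMap P F x = z) (p : A[X]) :
    algebraMap P F (aeval x p) = aeval z (p.map (algebraMap A K₀)) := by
  rw [aeval_map_algebraMap, ← hx, aeval_algebraMap_apply]

theorem exists_lift (hA : ∀ a : K₀, a ∈ A₀ ↔ ∃ a' : A, algebraMap A K₀ a' = a) (p : K₀[X])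
    (hp : ∀ i, p.coeff i ∈ A₀) : ∃ p' : A[X], p'.map (algebraMap A K₀) = p := by
  have h : p ∈ Polynomial.lifts (algebraMap A K₀) := by
    rw [Polynomial.lifts_iff_coeff_lifts]
    intro i
    exact (hA _).1 (hp i)
  exact h

theorem coeff_map_mem (hA : ∀ a : K₀, a ∈ A₀ ↔ ∃ a' : A, algebraMap A K₀ a' = a) (p : A[X])
    (i : ℕ) : (p.map (algebraMap A K₀)).coeff i ∈ A₀ := by
  rw [coeff_map]
  exact (hA _).2 ⟨_, rfl⟩

/-- **The dictionary between the two notions of chart.** -/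
theorem isIntegral_adjoin_iff (hA : ∀ a : K₀, a ∈ A₀ ↔ ∃ a' : A, algebraMap A K₀ a' = a) {x : P}
    {z : F} (hx : algebraMap P F x = z) (y : F) :
    IsIntegral (Algebra.adjoin A {x}) y ↔ y ∈ chart A₀.toSubring z := by
  rw [mem_chart_iff_isIntegral]
  constructor
  · refine isIntegral_of_forall_exists_algebraMap fun r => ?_
    obtain ⟨p, hp⟩ : (r : P) ∈ (aeval x : A[X] →ₐ[A] P).range := by
      rw [← Algebra.adjoin_singleton_eq_range_aeval]
      exact r.2
    have hp' : aeval x p = (r : P) := hp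
    refine ⟨⟨aeval z (p.map (algebraMap A K₀)), (mem_polyRing_iff _ _ _).2
      ⟨_, coeff_map_mem hA p, rfl⟩⟩, ?_⟩
    show aeval z (p.map (algebraMap A K₀)) = algebraMap P F (r : P)
    rw [← hp', algebraMap_aeval (K₀ := K₀) hx]
  · refine isIntegral_of_forall_exists_algebraMap fun r => ?_
    obtain ⟨p, hp, hr⟩ := (mem_polyRing_iff _ _ _).1 r.2
    obtain ⟨p', rfl⟩ := exists_lift hA p hp
    refine ⟨⟨aeval x p', ?_⟩, ?_⟩
    · rw [Algebra.adjoin_singleton_eq_range_aeval]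
      exact ⟨p', rfl⟩
    · show algebraMap P F (aeval x p') = (r : F)
      rw [algebraMap_aeval (K₀ := K₀) hx, hr]


theorem algebraMap_const (a : A) :
    algebraMap P F (algebraMap A P a) = algebraMap K₀ F (algebraMap A K₀ a) := by
  rw [← IsScalarTower.algebraMap_apply A P F, ← IsScalarTower.algebraMap_apply A K₀ F]

theorem algebraMap_const' (a : A) :
    algebraMap A F a = algebraMap K₀ F (algebraMap A K₀ a) :=
  IsScalarTower.algebraMap_apply A K₀ F a

/-- `π ∤ a` means that `a` is a unit of `A₀`. -/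
theorem valuation_eq_one_of_not_dvd (hinj : Function.Injective (algebraMap A K₀))
    (hA : ∀ a : K₀, a ∈ A₀ ↔ ∃ a' : A, algebraMap A K₀ a' = a) (h₀ : IsUnif A₀ ϖ₀) {π : A}
    (hπ : algebraMap A K₀ π = ϖ₀) {a : A} (ha : ¬ π ∣ a) :
    A₀.valuation (algebraMap A K₀ a) = 1 := by
  have h1 : A₀.valuation (algebraMap A K₀ a) ≤ 1 :=
    (A₀.valuation_le_one_iff _).mpr ((hA _).2 ⟨a, rfl⟩)
  refine le_antisymm h1 (not_lt.mp fun hlt => ha ?_)
  obtain ⟨b, hb⟩ := (hA _).1 (div_mem_of_valuation_lt_one h₀ hlt)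
  refine ⟨b, hinj ?_⟩
  rw [map_mul, hb, hπ, mul_div_cancel₀ _ h₀.ne_zero]

theorem irreducible_of_isUnif (hinj : Function.Injective (algebraMap A K₀))
    (hA : ∀ a : K₀, a ∈ A₀ ↔ ∃ a' : A, algebraMap A K₀ a' = a) (h₀ : IsUnif A₀ ϖ₀) {π : A}
    (hπ : algebraMap A K₀ π = ϖ₀) : Irreducible π := by
  let e : A ≃+* A₀ := RingEquiv.ofBijective
    ((algebraMap A K₀).codRestrict A₀.toSubring fun a => (hA _).2 ⟨a, rfl⟩)
    ⟨fun a b hab => hinj (congrArg Subtype.val hab), fun a => by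
      obtain ⟨a', ha'⟩ := (hA _).1 a.2
      exact ⟨a', Subtype.ext ha'⟩⟩
  have h1 : e π = ⟨ϖ₀, h₀.mem⟩ := Subtype.ext hπ
  have h2 := h₀.irreducible
  rw [← h1] at h2
  exact (MulEquiv.irreducible_iff e).1 h2

section Coord

variable {W : ValuationSubring F} {x : P} {z : F}

theorem isCoord (hinj : Function.Injective (algebraMap A K₀))
    (hA : ∀ a : K₀, a ∈ A₀ ↔ ∃ a' : A, algebraMap A K₀ a' = a) (h₀ : IsUnif A₀ ϖ₀)
    (hx : algebraMap P F x = z) (hP : ∀ y : F, y ∈ K₀⟮z⟯ ↔ ∃ y' : P, algebraMap P F y' = y)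
    (hz : IsMCoord A₀ W z) (hc : ∀ a ∈ A₀, algebraMap K₀ F a ∈ W)
    (hϖ : W.valuation (algebraMap K₀ F ϖ₀) < 1) : KLB.IsCoord A x := by
  have key : ∀ p : A[X], aeval x p ∈ Algebra.adjoin A {x} := fun p => by
    rw [Algebra.adjoin_singleton_eq_range_aeval]
    exact ⟨p, rfl⟩
  constructor
  · rw [transcendental_iff]
    intro p hp
    have h1 := algebraMap_aeval (K₀ := K₀) hx p
    rw [hp, map_zero] at h1
    have h2 := (transcendental_iff.1 hz.transcendental) _ h1.symm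
    exact Polynomial.map_injective _ hinj (by rw [h2, Polynomial.map_zero])
  · refine IsFractionRing.of_field _ _ fun y => ?_
    have hy : algebraMap P F y ∈ K₀⟮z⟯ := (hP _).2 ⟨y, rfl⟩
    rcases W.mem_or_inv_mem (algebraMap P F y) with hW | hW
    · obtain ⟨p, d, hp, hd, hd1, hpd⟩ := hz.exists_frac h₀ hc hϖ hy hW
      obtain ⟨p', rfl⟩ := exists_lift hA p hp
      obtain ⟨d', rfl⟩ := exists_lift hA d hd
      have hd0 := VertAux.ne_zero_of_val_eq_one (hz.valuation_aeval_eq_one hc hd hd1)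
      rw [← algebraMap_aeval (K₀ := K₀) hx, ← algebraMap_aeval (K₀ := K₀) hx, ← map_mul] at hpd
      rw [← algebraMap_aeval (K₀ := K₀) hx] at hd0
      have hd0' : aeval x d' ≠ 0 := fun h => hd0 (by rw [h, map_zero])
      refine ⟨⟨_, key p'⟩, ⟨_, key d'⟩, ?_⟩
      show y = aeval x p' / aeval x d'
      rw [← (algebraMap P F).injective hpd, mul_div_cancel_right₀ _ hd0']
    · obtain ⟨p, d, hp, hd, hd1, hpd⟩ := hz.exists_frac h₀ hc hϖ (inv_mem hy) hW
      obtain ⟨p', rfl⟩ := exists_lift hA p hp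
      obtain ⟨d', rfl⟩ := exists_lift hA d hd
      have hd0 := VertAux.ne_zero_of_val_eq_one (hz.valuation_aeval_eq_one hc hd hd1)
      rw [← algebraMap_aeval (K₀ := K₀) hx, ← algebraMap_aeval (K₀ := K₀) hx, ← map_inv₀,
        ← map_mul] at hpd
      rw [← algebraMap_aeval (K₀ := K₀) hx] at hd0
      have hd0' : aeval x d' ≠ 0 := fun h => hd0 (by rw [h, map_zero])
      refine ⟨⟨_, key d'⟩, ⟨_, key p'⟩, ?_⟩
      show y = aeval x d' / aeval x p'
      rw [← (algebraMap P F).injective hpd]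
      rcases eq_or_ne y 0 with rfl | hy0
      · simp
      · field_simp

variable [IsDomain A] [IsDiscreteValuationRing A]

/-- every vertical valuation ring induces the Gauss valuation ring on `P`. -/
theorem isLocSub (hinj : Function.Injective (algebraMap A K₀))
    (hA : ∀ a : K₀, a ∈ A₀ ↔ ∃ a' : A, algebraMap A K₀ a' = a) (h₀ : IsUnif A₀ ϖ₀)
    (hx : algebraMap P F x = z) (hz : IsMCoord A₀ W z) (hc : ∀ a ∈ A₀, algebraMap K₀ F a ∈ W)
    (hϖ : W.valuation (algebraMap K₀ F ϖ₀) < 1) {π : A} (hπ : algebraMap A K₀ π = ϖ₀)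
    (hco : KLB.IsCoord A x) (hirr : Irreducible π) :
    KLB.IsLocSub (KLB.ndvd (hco.prime hirr)) (W.toSubring.comap (algebraMap P F)) := by
  refine KLB.Mod.isLocSub_of_gauss hco hirr W (fun p => ?_) (fun p hp => ?_) ?_
  · rw [algebraMap_aeval (K₀ := K₀) hx]
    exact CoordAux.aeval_mem hz.mem hc (coeff_map_mem hA p)
  · rw [algebraMap_aeval (K₀ := K₀) hx]
    refine VertAux.inv_mem_of_val_eq_one (hz.valuation_aeval_eq_one hc (coeff_map_mem hA p) ?_)
    rw [Polynomial.C_dvd_iff_dvd_coeff, not_forall] at hp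
    obtain ⟨i, hi⟩ := hp
    exact ⟨i, by rw [coeff_map]; exact valuation_eq_one_of_not_dvd hinj hA h₀ hπ hi⟩
  · rw [algebraMap_const (K₀ := K₀), hπ]
    rcases (change_val_lt_one_iff _ _).1 hϖ with h | h
    · exact absurd h ((_root_.map_ne_zero _).mpr h₀.ne_zero)
    · exact h

end Coord

/-- two valuation rings of `F` with the same trace on `P` have the same maximal ideal on `P`. -/
theorem val_lt_one_iff_of_comap_eq {W W' : ValuationSubring F}
    (h : W.toSubring.comap (algebraMap P F) = W'.toSubring.comap (algebraMap P F)) (y : P) :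
    W.valuation (algebraMap P F y) < 1 ↔ W'.valuation (algebraMap P F y) < 1 := by
  have h' : ∀ y : P, algebraMap P F y ∈ W ↔ algebraMap P F y ∈ W' := fun y => by
    have := congrArg (fun S : Subring P => y ∈ S) h
    exact iff_of_eq this
  rw [change_val_lt_one_iff, change_val_lt_one_iff, ← map_inv₀, h']


/-- the radical condition for an arbitrary set of components, from the one for the other
component. -/
theorem rad_of_two {V : Fin 2 → ValuationSubring F}
    (hA : ∀ a : K₀, a ∈ A₀ ↔ ∃ a' : A, algebraMap A K₀ a' = a) {x : P} {z : F}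
    (hx : algebraMap P F x = z)
    (hrad : ∀ c c' : Fin 2, c ≠ c' → ∀ f ∈ chart A₀.toSubring z, ∀ m : ℕ,
      (∃ g ∈ chart A₀.toSubring z, (V c').valuation g < 1 ∧ (V c).valuation (f ^ m - g) < 1) →
      ∃ g ∈ chart A₀.toSubring z, (V c').valuation g < 1 ∧ (V c).valuation (f - g) < 1)
    (T : Set (ValuationSubring F)) (hT : ∀ W ∈ T, W = V 0 ∨ W = V 1) (c : Fin 2) (hc : V c ∉ T)
    (f : F) (m : ℕ) (hf : IsIntegral (Algebra.adjoin A {x}) f)
    (h : ∃ g ∈ Nodal.ChV A F x T, f ^ m - g ∈ (V c).nonunits) :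
    ∃ g ∈ Nodal.ChV A F x T, f - g ∈ (V c).nonunits := by
  rcases T.eq_empty_or_nonempty with rfl | ⟨W₀, hW₀⟩
  · exact ⟨f, ⟨hf, fun W hW => absurd hW (Set.notMem_empty W)⟩, by
      rw [sub_self]; exact Nodal.zero_mem_nonunits _⟩
  · obtain ⟨c', hcc', hT'⟩ : ∃ c' : Fin 2, c ≠ c' ∧ ∀ W ∈ T, W = V c' := by
      have hne : ∀ W ∈ T, W ≠ V c := fun W hW h => hc (h ▸ hW)
      fin_cases c
      · exact ⟨1, by decide, fun W hW => (hT W hW).resolve_left (hne W hW)⟩
      · exact ⟨0, by decide, fun W hW => (hT W hW).resolve_right (hne W hW)⟩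
    obtain ⟨g, hg, hfg⟩ := h
    have hW₀' : V c' ∈ T := hT' W₀ hW₀ ▸ hW₀
    obtain ⟨g', hg', hg'1, hg'2⟩ := hrad c c' hcc' f ((isIntegral_adjoin_iff hA hx f).1 hf) m
      ⟨g, (isIntegral_adjoin_iff hA hx g).1 hg.1, hg.2 _ hW₀', hfg⟩
    refine ⟨g', ⟨(isIntegral_adjoin_iff hA hx g').2 hg', fun W hW => ?_⟩, hg'2⟩
    rw [hT' W hW]
    exact hg'1

end Dict

open Dict

variable {K₀ F' F : Type*} [Field K₀] [Field F'] [Field F] [Algebra K₀ F'] [Algebra K₀ F]
variable {A₀ : ValuationSubring K₀} {ϖ₀ : K₀} {q : ℕ} {al be : F' →ₐ[K₀] F} {w : F ≃ₐ[K₀] F}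
  {γ : F' →+* F'} {Ow' : ValuationSubring F'} {V : Fin 2 → ValuationSubring F} {x' : F'}

/-- **The base of the nodal core at level `M q`**, for any discrete valuation ring `A` with an
injection into `K₀` of image `A₀` and any field `P` with an embedding into `F` of image `K₀(x)`,
`x = x'(z) x'(q z)`. -/
theorem LQ.nodalBase {A P : Type*} [CommRing A] [IsDomain A] [IsDiscreteValuationRing A] [Field P]
    [Algebra A K₀] [Algebra A P] [Algebra P F] [Algebra A F] [IsScalarTower A P F]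
    [IsScalarTower A K₀ F] (H : LQ A₀ ϖ₀ q al be w γ Ow' V x')
    (hinj : Function.Injective (algebraMap A K₀))
    (hA : ∀ a : K₀, a ∈ A₀ ↔ ∃ a' : A, algebraMap A K₀ a' = a)
    (x : P) (hx : algebraMap P F x = xx al be x')
    (hP : ∀ y : F, y ∈ K₀⟮xx al be x'⟯ ↔ ∃ y' : P, algebraMap P F y' = y)
    (π : A) (hπ : algebraMap A K₀ π = ϖ₀)
    (vert : Finset (ValuationSubring F)) (hvert : ∀ W, W ∈ vert ↔ W = V 0 ∨ W = V 1) :
    Nodal.Base A F x π ((V 0).toSubring.comap (algebraMap P F)) vert := by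
  have h₀ : IsUnif A₀ ϖ₀ := H.isMVert.unif₀
  have hco : KLB.IsCoord A x := isCoord hinj hA h₀ hx hP (H.isMCoord 0) (H.isMVert.const_mem 0)
    (H.isMVert.lt_one 0)
  have hirr : Irreducible π := irreducible_of_isUnif hinj hA h₀ hπ
  have hloc : ∀ c, KLB.IsLocSub (KLB.ndvd (hco.prime hirr))
      ((V c).toSubring.comap (algebraMap P F)) := fun c =>
    isLocSub hinj hA h₀ hx (H.isMCoord c) (H.isMVert.const_mem c) (H.isMVert.lt_one c) hπ hco hirr
  have hcomap : ∀ c, (V c).toSubring.comap (algebraMap P F) =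
      (V 0).toSubring.comap (algebraMap P F) := fun c =>
    Subring.ext fun a => ((hloc c) a).trans ((hloc 0) a).symm
  have hex : ∀ W, W ∈ vert ↔ ∃ c, W = V c := fun W => by
    rw [hvert]
    constructor
    · rintro (h | h)
      · exact ⟨0, h⟩
      · exact ⟨1, h⟩
    · rintro ⟨c, h⟩
      fin_cases c
      · exact Or.inl h
      · exact Or.inr h
  have hx' : algebraMap P F x⁻¹ = (xx al be x')⁻¹ := by rw [map_inv₀, hx]
  refine ⟨hco, hirr, hloc 0, fun W => ?_, ?_, ?_, ?_, ?_, ?_⟩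
  · -- `vert_iff`
    rw [hex]
    constructor
    · rintro ⟨c, rfl⟩
      exact hcomap c
    · intro hW
      have hmem : ∀ y : P, algebraMap P F y ∈ W ↔ algebraMap P F y ∈ V 0 := fun y =>
        iff_of_eq (congrArg (fun S : Subring P => y ∈ S) hW)
      refine H.eq_of_vertical W ⟨?_, fun p hp hlt => ?_⟩ (fun a ha => ?_) ?_
      · rw [← hx, hmem, hx]
        exact (H.isMCoord 0).mem
      · obtain ⟨p', rfl⟩ := exists_lift hA p hp
        rw [← algebraMap_aeval (K₀ := K₀) hx, val_lt_one_iff_of_comap_eq hW,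
          algebraMap_aeval (K₀ := K₀) hx] at hlt
        exact (H.isMCoord 0).transc _ hp hlt
      · obtain ⟨a', rfl⟩ := (hA a).1 ha
        rw [← algebraMap_const (P := P), hmem, algebraMap_const (K₀ := K₀)]
        exact H.isMVert.const_mem 0 _ ha
      · rw [← hπ, ← algebraMap_const (P := P), val_lt_one_iff_of_comap_eq hW,
          algebraMap_const (K₀ := K₀), hπ]
        exact H.isMVert.lt_one 0
  · -- `unif`
    intro W hW y hy
    obtain ⟨c, rfl⟩ := (hex W).1 hW
    rw [algebraMap_const' (K₀ := K₀), hπ, inv_mul_eq_div]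
    exact div_mem_of_valuation_lt_one (H.unif_all c) hy
  · -- `nor₁`
    intro W hW z hz p hp hpc hpz
    obtain ⟨c, rfl⟩ := (hex W).1 hW
    obtain ⟨f, hf, hzf⟩ := H.nor_closed₁ c z hz p hp
      (fun j => (isIntegral_adjoin_iff hA hx _).1 (hpc j)) hpz
    exact ⟨f, (isIntegral_adjoin_iff hA hx _).2 hf, hzf⟩
  · -- `nor₂`
    intro W hW z hz p hp hpc hpz
    obtain ⟨c, rfl⟩ := (hex W).1 hW
    obtain ⟨f, hf, hzf⟩ := H.nor_closed₂ c z hz p hp
      (fun j => (isIntegral_adjoin_iff hA hx' _).1 (hpc j)) hpz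
    exact ⟨f, (isIntegral_adjoin_iff hA hx' _).2 hf, hzf⟩
  · -- `rad₁`
    intro T hT W hW hWT f m hf h
    obtain ⟨c, rfl⟩ := (hex W).1 hW
    exact rad_of_two hA hx H.rad₁ T (fun W hW => (hvert W).1 (hT hW)) c hWT f m hf h
  · -- `rad₂`
    intro T hT W hW hWT f m hf h
    obtain ⟨c, rfl⟩ := (hex W).1 hW
    exact rad_of_two hA hx' H.rad₂ T (fun W hW => (hvert W).1 (hT hW)) c hWT f m hf h

/-- The two vertical valuation rings, as a `Finset`. -/
def vertSet (V : Fin 2 → ValuationSubring F) : Finset (ValuationSubring F) :=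
  letI := Classical.decEq (ValuationSubring F)
  {V 0, V 1}

theorem mem_vertSet (V : Fin 2 → ValuationSubring F) (W : ValuationSubring F) :
    W ∈ vertSet V ↔ W = V 0 ∨ W = V 1 := by
  classical
  rw [vertSet, Finset.mem_insert, Finset.mem_singleton]

theorem LQ.isDiscreteValuationRing (H : LQ A₀ ϖ₀ q al be w γ Ow' V x') :
    IsDiscreteValuationRing A₀ :=
  H.isMVert.unif₀.isDiscreteValuationRing

/-- The concrete form: `A = A₀`, `P = K₀(x)` as subtypes. -/
theorem LQ.nodalBase' [IsDiscreteValuationRing A₀] (H : LQ A₀ ϖ₀ q al be w γ Ow' V x') :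
    Nodal.Base A₀ F (AdjoinSimple.gen K₀ (xx al be x')) (⟨ϖ₀, H.isMVert.unif₀.mem⟩ : A₀)
      ((V 0).toSubring.comap (algebraMap K₀⟮xx al be x'⟯ F)) (vertSet V) :=
  H.nodalBase Subtype.val_injective (fun a => ⟨fun h => ⟨⟨a, h⟩, rfl⟩, by
      rintro ⟨a', rfl⟩
      exact a'.2⟩) _ rfl (fun y => ⟨fun h => ⟨⟨y, h⟩, rfl⟩, by
      rintro ⟨y', rfl⟩
      exact y'.2⟩) _ rfl _ (mem_vertSet V)

end Fermat.Agent.BAD.LevelQ

end
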